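import Fermat.Agent.LT.Defs

/-!
Functoriality of completions, finite adeles and `GL₂` in a homomorphism of number fields
(Galois action and base change).
-/

set_option autoImplicit false
set_option linter.style.haveILetI false

noncomputable section

namespace FLTAgent.LT

open NumberField IsDedekindDomain

variable {F E : Type*} [Field F] [NumberField F] [Field E] [NumberField E] (i : F →+* E)

/-- The place below, along `i`. -/
def placeBelow (w : HeightOneSpectrum (𝓞 E)) : HeightOneSpectrum (𝓞 F) where
  asIdeal := w.asIdeal.comap (RingOfIntegers.mapRingHom i)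
  isPrime := Ideal.IsPrime.comap _
  ne_bot := by
    intro h
    letI : Algebra F E := i.toAlgebra
    exact w.ne_bot (Ideal.eq_bot_of_comap_eq_bot (R := 𝓞 F) h)

lemma exists_uniformContinuous_map (w : HeightOneSpectrum (𝓞 E)) :
    ∃ f : WithVal ((placeBelow i w).valuation F) →+* WithVal (w.valuation E),
      UniformContinuous f ∧ ∀ x : F, f (WithVal.toVal _ x) = WithVal.toVal _ (i x) := by
  letI : Algebra F E := i.toAlgebra
  haveI : w.asIdeal.LiesOver (placeBelow i w).asIdeal := ⟨rfl⟩
  exact ⟨algebraMap _ _, HeightOneSpectrum.uniformContinuous_algebraMap_liesOver F E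
    (placeBelow i w) w, fun x => rfl⟩

/-- The extension of `i` to the completions. -/
def complMap (w : HeightOneSpectrum (𝓞 E)) :
    (placeBelow i w).adicCompletion F →+* w.adicCompletion E :=
  ((HeightOneSpectrum.adicCompletion.equiv E w).symm.toRingHom.comp
    (UniformSpace.Completion.mapRingHom (exists_uniformContinuous_map i w).choose
      (exists_uniformContinuous_map i w).choose_spec.1.continuous)).comp
    (HeightOneSpectrum.adicCompletion.equiv F (placeBelow i w)).toRingHom

lemma complMap_coe (w : HeightOneSpectrum (𝓞 E)) (x : F) :
    complMap i w (x : (placeBelow i w).adicCompletion F) = (i x : w.adicCompletion E) := by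
  apply HeightOneSpectrum.adicCompletion.ext
  simp only [complMap, RingHom.comp_apply, RingEquiv.toRingHom_eq_coe, RingHom.coe_coe,
    HeightOneSpectrum.adicCompletion.equiv_apply]
  erw [UniformSpace.Completion.mapRingHom_coe, (exists_uniformContinuous_map i w).choose_spec.2]
  rfl

lemma continuous_complMap (w : HeightOneSpectrum (𝓞 E)) : Continuous (complMap i w) :=
  (HeightOneSpectrum.adicCompletion.continuous_ofCompletion E w).comp
    (UniformSpace.Completion.continuous_map.comp
      (HeightOneSpectrum.adicCompletion.continuous_toCompletion F (placeBelow i w)))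

lemma complMap_integer (w : HeightOneSpectrum (𝓞 E))
    (x : (placeBelow i w).adicCompletion F)
    (hx : x ∈ (placeBelow i w).adicCompletionIntegers F) :
    complMap i w x ∈ w.adicCompletionIntegers E := by
  letI : Algebra F E := i.toAlgebra
  haveI : w.asIdeal.LiesOver (placeBelow i w).asIdeal := ⟨rfl⟩
  set v := placeBelow i w
  -- the set of good points is closed and contains the dense set of integral elements of `F`
  have hcl : IsClosed (complMap i w ⁻¹' (w.adicCompletionIntegers E : Set (w.adicCompletion E))) :=
    (Valued.isClosed_valuationSubring _).preimage (continuous_complMap i w)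
  have hop : IsOpen (v.adicCompletionIntegers F : Set (v.adicCompletion F)) :=
    Valued.isOpen_valuationSubring _
  have hd : DenseRange (fun y : F => (y : v.adicCompletion F)) := by
    have := (HeightOneSpectrum.adicCompletion.ofCompletion_surjective F v).denseRange.comp
      (UniformSpace.Completion.denseRange_coe (α := WithVal (v.valuation F)))
      (HeightOneSpectrum.adicCompletion.continuous_ofCompletion F v)
    exact this.comp (WithVal.equiv (v.valuation F)).symm.surjective.denseRange (by
      exact (HeightOneSpectrum.adicCompletion.continuous_ofCompletion F v).comp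
        (UniformSpace.Completion.continuous_coe _))
  have hsub : (v.adicCompletionIntegers F : Set (v.adicCompletion F)) ⊆
      closure ((v.adicCompletionIntegers F : Set (v.adicCompletion F)) ∩
        Set.range fun y : F => (y : v.adicCompletion F)) := fun z hz =>
    hd.open_subset_closure_inter hop hz
  refine hcl.closure_subset_iff.2 ?_ (hsub hx)
  rintro _ ⟨hy, y, rfl⟩
  rw [Set.mem_preimage, complMap_coe, SetLike.mem_coe, HeightOneSpectrum.mem_adicCompletionIntegers,
    HeightOneSpectrum.adicCompletion.valued_coe]
  rw [SetLike.mem_coe, HeightOneSpectrum.mem_adicCompletionIntegers,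
    HeightOneSpectrum.adicCompletion.valued_coe] at hy
  show w.valuation E (algebraMap F E y) ≤ 1
  rw [← HeightOneSpectrum.valuation_liesOver E v w y]
  exact pow_le_one₀ zero_le hy

lemma finite_fibre (v : HeightOneSpectrum (𝓞 F)) : {w | placeBelow i w = v}.Finite := by
  letI : Algebra F E := i.toAlgebra
  refine Set.Finite.of_finite_image (f := HeightOneSpectrum.asIdeal)
    ((IsDedekindDomain.primesOver_finite v.asIdeal (𝓞 E)).subset ?_)
    fun a _ b _ h => HeightOneSpectrum.ext h
  rintro _ ⟨w, hw, rfl⟩
  exact ⟨w.isPrime, ⟨(congrArg HeightOneSpectrum.asIdeal hw).symm⟩⟩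

/-- The map of finite adeles. -/
def afMap : Af F →+* Af E where
  toFun a := ⟨fun w => complMap i w (a (placeBelow i w)), by
    have hbad : {v | a v ∉ v.adicCompletionIntegers F}.Finite := a.2
    refine Filter.eventually_cofinite.2
      ((hbad.biUnion fun v _ => finite_fibre i v).subset fun w hw => ?_)
    simp only [Set.mem_iUnion]
    exact ⟨placeBelow i w, fun h => hw (complMap_integer i w _ h), rfl⟩⟩
  map_one' := FiniteAdeleRing.ext E fun w => map_one (complMap i w)
  map_mul' a b := FiniteAdeleRing.ext E fun w => map_mul (complMap i w) _ _
  map_zero' := FiniteAdeleRing.ext E fun w => map_zero (complMap i w)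
  map_add' a b := FiniteAdeleRing.ext E fun w => map_add (complMap i w) _ _

lemma afMap_apply (a : Af F) (w : HeightOneSpectrum (𝓞 E)) :
    afMap i a w = complMap i w (a (placeBelow i w)) := rfl

lemma afMap_algebraMap (x : F) : afMap i (algebraMap F (Af F) x) = algebraMap E (Af E) (i x) :=
  FiniteAdeleRing.ext E fun w => complMap_coe i w x

/-- The map of adelic groups. -/
def gfMap : GF F →* GF E := Matrix.GeneralLinearGroup.map (afMap i)

lemma gfMap_toFin (g : GL (Fin 2) F) :
    gfMap i (toFin g) = toFin (Matrix.GeneralLinearGroup.map i g) := by
  exact Units.ext (Matrix.ext fun a b => afMap_algebraMap i _)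

end FLTAgent.LT
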