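import Mathlib
import Fermat.Prelude.Def_LanglandsTunnell_WeightOneRealizationCarriers
import Fermat.Prelude.Def_EllipticCurve_FrobeniusTrace
import Fermat.Prelude.Def_GaloisRep_ModThreeCyclotomic

/-!
Carriers of the Langlands-Tunnell route: hyperbolic 3-space, functions on
`GL₂(F) \ (H3^{places} × GL₂(A_f))`, Hecke operators, and the mod 3 octahedral data.
-/

set_option autoImplicit false

noncomputable section

namespace FLTAgent.LT

open NumberField IsDedekindDomain MeasureTheory WeierstrassCurve Matrix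

/-! ### Hyperbolic 3-space -/

/-- Upper half space `z + t j`, `t > 0`. -/
abbrev H3 := ℂ × Set.Ioi (0 : ℝ)

/-- `|c z + d|² + |c|² t²`. -/
def den (g : GL (Fin 2) ℂ) (p : H3) : ℝ :=
  Complex.normSq (g 1 0 * p.1 + g 1 1) + Complex.normSq (g 1 0) * (p.2 : ℝ) ^ 2

lemma den_pos (g : GL (Fin 2) ℂ) (p : H3) : 0 < den g p := by
  have ht : (0 : ℝ) < p.2 := p.2.2
  rcases eq_or_ne (g 1 0) 0 with h | h
  · have hd : g 1 1 ≠ 0 := by
      intro h'
      have := (Matrix.GeneralLinearGroup.det g).ne_zero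
      simp [Matrix.det_fin_two, h, h'] at this
    simpa [den, h] using hd
  · have : 0 < Complex.normSq (g 1 0) * (p.2 : ℝ) ^ 2 :=
      mul_pos (Complex.normSq_pos.2 h) (pow_pos ht 2)
    exact add_pos_of_nonneg_of_pos (Complex.normSq_nonneg _) this

/-- The action of `GL₂(ℂ)` on upper half space. -/
def act (g : GL (Fin 2) ℂ) (p : H3) : H3 :=
  (((g 0 0 * p.1 + g 0 1) * (starRingEnd ℂ) (g 1 0 * p.1 + g 1 1)
        + g 0 0 * (starRingEnd ℂ) (g 1 0) * (((p.2 : ℝ) ^ 2 : ℝ) : ℂ)) / (den g p : ℂ),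
    ⟨‖(Matrix.GeneralLinearGroup.det g : ℂ)‖ * (p.2 : ℝ) / den g p, by
      have ht : (0 : ℝ) < p.2 := p.2.2
      have := norm_pos_iff.2 (Matrix.GeneralLinearGroup.det g).ne_zero
      exact div_pos (mul_pos this ht) (den_pos g p)⟩)

/-- `cosh` of the hyperbolic distance. -/
def coshDist (p q : H3) : ℝ :=
  1 + (Complex.normSq (p.1 - q.1) + ((p.2 : ℝ) - q.2) ^ 2) / (2 * p.2 * q.2)

/-- The invariant measure `dx dy dt / t³`. -/
def hypMeasure : Measure H3 :=
  ((volume : Measure (ℂ × ℝ)).comap fun p : H3 => (p.1, (p.2 : ℝ))).withDensity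
    fun p => ENNReal.ofReal (((p.2 : ℝ) ^ 3)⁻¹)

/-- The upper half plane inside upper half space. -/
def planeEmb (τ : UpperHalfPlane) : H3 := ((τ.re : ℂ), ⟨τ.im, τ.im_pos⟩)

/-! ### Adelic carriers -/

variable (F : Type*) [Field F] [NumberField F]

/-- Finite adeles. -/
abbrev Af := FiniteAdeleRing (𝓞 F) F

/-- `GL₂` of the finite adeles. -/
abbrev GF := GL (Fin 2) (Af F)

/-- A point at infinity: one upper half space per infinite place. -/
abbrev Xinf := InfinitePlace F → H3

/-- Functions of the points at infinity and of a finite adelic matrix. -/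
abbrev Form := Xinf F → GF F → ℂ

variable {F}

/-- Diagonal embedding of `GL₂(F)`. -/
def toFin : GL (Fin 2) F →* GF F := Matrix.GeneralLinearGroup.map (algebraMap F (Af F))

/-- The action of `GL₂(F)` on the points at infinity. -/
def actInf (γ : GL (Fin 2) F) (x : Xinf F) : Xinf F := fun w =>
  act (Matrix.GeneralLinearGroup.map w.embedding γ) (x w)

/-- `k ≡ 1 mod N` at every finite place, also for `k⁻¹`. -/
def InLevel (N : ℕ) (k : GF F) : Prop :=
  ∀ (v : HeightOneSpectrum (𝓞 F)) (i j : Fin 2),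
    Valued.v (((k : Matrix (Fin 2) (Fin 2) (Af F)) - 1) i j v) ≤
        Valued.v (((N : Af F)) v) ∧
      Valued.v ((((k⁻¹ : GF F) : Matrix (Fin 2) (Fin 2) (Af F)) - 1) i j v) ≤
        Valued.v (((N : Af F)) v)

/-- Scalar matrices. -/
def scalarGF (a : (Af F)ˣ) : GF F :=
  Units.map ((Matrix.scalar (Fin 2)) : Af F →+* Matrix (Fin 2) (Fin 2) (Af F)).toMonoidHom a

/-- Left `GL₂(F)`, right level `N`, trivial central character. -/
structure Automorphic (N : ℕ) (φ : Form F) : Prop where
  left_inv : ∀ γ x g, φ (actInf γ x) (toFin γ * g) = φ x g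
  right_inv : ∀ k, InLevel N k → ∀ x g, φ x (g * k) = φ x g
  central : ∀ a x g, φ x (g * scalarGF a) = φ x g

/-- Horizontal translation by a vector of complex numbers. -/
def translate (z : InfinitePlace F → ℂ) (x : Xinf F) : Xinf F := fun w => ((x w).1 + z w, (x w).2)

/-- The vector of `m · Σ yᵢ bᵢ` for the integral basis `b`. -/
def boxVec (m : ℕ) (y : Module.Free.ChooseBasisIndex ℤ (𝓞 F) → ℝ) : InfinitePlace F → ℂ := fun w =>
  (m : ℂ) * ∑ i, (y i : ℂ) * w.embedding (RingOfIntegers.basis F i : F)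

/-- All constant terms vanish. -/
def Cusp (φ : Form F) : Prop :=
  ∀ (g : GF F) (m : ℕ), 0 < m →
    (∀ (β : 𝓞 F) (x : Xinf F),
        φ (translate (fun w => (m : ℂ) * w.embedding (β : F)) x) g = φ x g) →
      ∀ x : Xinf F,
        ∫ y in Set.pi Set.univ
            (fun _ : Module.Free.ChooseBasisIndex ℤ (𝓞 F) => Set.Ico (0 : ℝ) 1),
          φ (translate (boxVec m y) x) g = 0

/-- Mean value property with the spherical function `r / sinh r` in each variable
(the Laplace eigenvalue with spectral parameter `0`). -/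
def ZeroEigen (φ : Form F) : Prop := by
  classical exact
    ∀ (w : InfinitePlace F) (x : Xinf F) (g : GF F) (H : ℝ → ℂ),
      Continuous H → HasCompactSupport H →
        ∫ q, H (coshDist (x w) q) * φ (Function.update x w q) g ∂hypMeasure =
          (∫ r in Set.Ioi (0 : ℝ), H (Real.cosh r) *
            ((4 * Real.pi * r * Real.sinh r : ℝ) : ℂ)) * φ x g

/-- Cusp forms with spectral parameter `0` at every infinite place. -/
structure CuspZero (N : ℕ) (φ : Form F) : Prop where
  cont : ∀ g, Continuous fun x => φ x g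
  bdd : ∃ C : ℝ, ∀ x g, ‖φ x g‖ ≤ C
  aut : Automorphic N φ
  cusp : Cusp φ
  eigen : ZeroEigen φ

/-! ### Hecke operators -/

/-- The upper triangular matrix `(a b; 0 1)`. -/
def upperGF (a : (Af F)ˣ) (b : Af F) : GF F where
  val := !![(a : Af F), b; 0, 1]
  inv := !![((a⁻¹ : (Af F)ˣ) : Af F), -(((a⁻¹ : (Af F)ˣ) : Af F) * b); 0, 1]
  val_inv := by
    ext i j
    fin_cases i <;> fin_cases j <;> simp [Matrix.mul_apply, Fin.sum_univ_two, ← mul_assoc]
  inv_val := by
    ext i j
    fin_cases i <;> fin_cases j <;> simp [Matrix.mul_apply, Fin.sum_univ_two]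

/-- The diagonal matrix `(1 0; 0 a)`. -/
def lowerDiag (a : (Af F)ˣ) : GF F where
  val := !![1, 0; 0, (a : Af F)]
  inv := !![1, 0; 0, ((a⁻¹ : (Af F)ˣ) : Af F)]
  val_inv := by
    ext i j
    fin_cases i <;> fin_cases j <;> simp [Matrix.mul_apply, Fin.sum_univ_two]
  inv_val := by
    ext i j
    fin_cases i <;> fin_cases j <;> simp [Matrix.mul_apply, Fin.sum_univ_two]

section local_elements

variable (v : HeightOneSpectrum (𝓞 F))

/-- A global element which is a uniformizer at `v`. -/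
def unif : F := (HeightOneSpectrum.valuation_exists_uniformizer F v).choose

lemma unif_ne_zero : unif v ≠ 0 := by
  intro h
  have := (HeightOneSpectrum.valuation_exists_uniformizer F v).choose_spec
  rw [show (HeightOneSpectrum.valuation_exists_uniformizer F v).choose = 0 from h, map_zero] at this
  exact WithZero.zero_ne_coe this

/-- The adele equal to `x` at `v` and to `1` elsewhere. -/
def adeleMulSingle (x : v.adicCompletion F) : Af F := by
  classical
  exact RestrictedProduct.mulSingle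
    (fun w : HeightOneSpectrum (𝓞 F) => w.adicCompletionIntegers F) v x

/-- The adele equal to `x` at `v` and to `0` elsewhere. -/
def adeleSingle (x : v.adicCompletion F) : Af F := by
  classical
  exact RestrictedProduct.single
    (fun w : HeightOneSpectrum (𝓞 F) => w.adicCompletionIntegers F) v x

lemma adeleMulSingle_mul (x y : v.adicCompletion F) :
    adeleMulSingle v (x * y) = adeleMulSingle v x * adeleMulSingle v y := by
  classical
  exact RestrictedProduct.mulSingle_mul _ v x y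

lemma adeleMulSingle_one : adeleMulSingle v 1 = 1 := by
  classical
  exact RestrictedProduct.mulSingle_one _ v

lemma unif_coe_ne_zero : ((unif v : F) : v.adicCompletion F) ≠ 0 := by
  intro h
  have := congrArg Valued.v h
  rw [HeightOneSpectrum.adicCompletion.valued_coe, map_zero, map_eq_zero] at this
  exact unif_ne_zero v this

/-- The uniformizer idele at `v`. -/
def unifIdele : (Af F)ˣ where
  val := adeleMulSingle v ((unif v : F) : v.adicCompletion F)
  inv := adeleMulSingle v (((unif v : F) : v.adicCompletion F)⁻¹)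
  val_inv := by
    rw [← adeleMulSingle_mul, mul_inv_cancel₀, adeleMulSingle_one]
    exact unif_coe_ne_zero v
  inv_val := by
    rw [← adeleMulSingle_mul, inv_mul_cancel₀, adeleMulSingle_one]
    exact unif_coe_ne_zero v

/-- The Hecke operator `T_v`. -/
def hecke (φ : Form F) : Form F := fun x g =>
  (∑ᶠ u : 𝓞 F ⧸ v.asIdeal,
      φ x (g * upperGF (unifIdele v) (adeleSingle v (((Quotient.out u : 𝓞 F) : F) : v.adicCompletion F)))) +
    φ x (g * lowerDiag (unifIdele v))

end local_elements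

/-- Eigen for every Hecke operator outside `N`. -/
def FullEigen (N : ℕ) (φ : Form F) : Prop :=
  ∀ v : HeightOneSpectrum (𝓞 F), (N : 𝓞 F) ∉ v.asIdeal →
    ∃ c : ℝ, ∀ x g, hecke v φ x g = (c : ℂ) * φ x g

/-! ### The octahedral data -/

/-- `ℚ̄` -/
abbrev Qb := AlgebraicClosure ℚ

/-- `G_ℚ` -/
abbrev Gam := Qb ≃ₐ[ℚ] Qb

/-- The complex embedding of `ℤ√-2` used for traces. -/
def iotaC : ℤ√(-2) →+* ℂ :=
  Zsqrtd.lift ⟨Complex.I * (Real.sqrt 2 : ℂ), by
    rw [mul_mul_mul_comm, Complex.I_mul_I, ← Complex.ofReal_mul,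
      Real.mul_self_sqrt (by norm_num : (0 : ℝ) ≤ 2)]
    push_cast
    norm_num⟩

/-- A surjective mod 3 representation with cyclotomic determinant and a lift. -/
structure Octa where
  rbar : Gam →* GL (Fin 2) (ZMod 3)
  cont : Continuous rbar
  surj : Function.Surjective rbar
  det_eq : ∀ σ, Matrix.GeneralLinearGroup.det (rbar σ) = modThreeCyclotomicChar σ
  lift : GL (Fin 2) (ZMod 3) →* GL (Fin 2) (ℤ√(-2))
  lift_red : ∀ g, Matrix.GeneralLinearGroup.map FLT.ExplicitLift.red (lift g) = g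

namespace Octa

variable (d : Octa)

/-- The complex trace of the lift. -/
def tr0 (σ : Gam) : ℂ :=
  iotaC ((d.lift (d.rbar σ) : GL (Fin 2) (ℤ√(-2))) : Matrix (Fin 2) (Fin 2) (ℤ√(-2))).trace

/-- The quaternion subgroup of `SL₂(𝔽₃)`. -/
def quat : Subgroup (GL (Fin 2) (ZMod 3)) :=
  Subgroup.closure
    {g | Matrix.GeneralLinearGroup.det g = 1 ∧
      ((g ^ 2 : GL (Fin 2) (ZMod 3)) : Matrix (Fin 2) (Fin 2) (ZMod 3)) = -1}

/-- `G_K`, `K = ℚ(√-3)`. -/
def GK : Subgroup Gam := ((Matrix.GeneralLinearGroup.det).comp d.rbar).ker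

/-- `G_M`, `M = K(∛Δ)`. -/
def GM : Subgroup Gam := quat.comap d.rbar

/-- `K` -/
def Kf : IntermediateField ℚ Qb := IntermediateField.fixedField d.GK

/-- `M` -/
def Mf : IntermediateField ℚ Qb := IntermediateField.fixedField d.GM

lemma isGalois_Qb : IsGalois ℚ Qb :=
  haveI : IsAlgClosure ℚ Qb := ⟨inferInstance, AlgebraicClosure.isAlgebraic ℚ⟩
  haveI : Normal ℚ Qb := IsAlgClosure.normal ℚ Qb
  isGalois_iff.2 ⟨inferInstance, inferInstance⟩

lemma isOpen_comap (H : Subgroup (GL (Fin 2) (ZMod 3))) :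
    IsOpen (H.comap d.rbar : Set Gam) :=
  (isOpen_discrete (H : Set (GL (Fin 2) (ZMod 3)))).preimage d.cont

lemma fixing_of_open {H : Subgroup Gam} (hH : IsOpen (H : Set Gam)) :
    (IntermediateField.fixedField H).fixingSubgroup = H ∧
      FiniteDimensional ℚ (IntermediateField.fixedField H) := by
  have := isGalois_Qb
  have h := InfiniteGalois.fixingSubgroup_fixedField (k := ℚ) (K := Qb)
    ⟨H, H.isClosed_of_isOpen hH⟩
  refine ⟨h, (InfiniteGalois.isOpen_iff_finite _).1 ?_⟩
  rw [h]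
  exact hH

lemma isOpen_GK : IsOpen (d.GK : Set Gam) :=
  d.isOpen_comap (Matrix.GeneralLinearGroup.det).ker

lemma isOpen_GM : IsOpen (d.GM : Set Gam) := d.isOpen_comap _

lemma fixing_Kf : d.Kf.fixingSubgroup = d.GK := (fixing_of_open d.isOpen_GK).1

lemma fixing_Mf : d.Mf.fixingSubgroup = d.GM := (fixing_of_open d.isOpen_GM).1

instance finiteDimensional_Kf : FiniteDimensional ℚ d.Kf := (fixing_of_open d.isOpen_GK).2

instance finiteDimensional_Mf : FiniteDimensional ℚ d.Mf := (fixing_of_open d.isOpen_GM).2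

instance numberField_Kf : NumberField d.Kf where

instance numberField_Mf : NumberField d.Mf where

/-- Admissible levels: positive, divisible by 3 and by the ramified primes of the representation. -/
def Good (N : ℕ) : Prop :=
  0 < N ∧ 3 ∣ N ∧ ∀ p : ℕ, p.Prime → ¬ p ∣ N → ∀ A : ValuationSubring Qb, A.LiesOverPrime p →
    ∀ σ ∈ A.inertiaSubgroupIn ℚ, d.rbar σ = 1

end Octa

/-- `T_v φ = √q_v · tr ρ₀(Frob_v) · φ` at the places `v` outside `N` whose Frobenius is in `G_M`. -/
def EigenRho (d : Octa) (F : IntermediateField ℚ Qb) [NumberField F] (N : ℕ) (φ : Form F) : Prop :=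
  ∀ p : ℕ, p.Prime → ¬ p ∣ N → ∀ A : ValuationSubring Qb, A.LiesOverPrime p →
    ∀ v : HeightOneSpectrum (𝓞 F),
      (∀ x : 𝓞 F, x ∈ v.asIdeal ↔ ((x : F) : Qb) ∈ A.nonunits) →
      ∀ σ : Gam, A.IsFrobeniusAt σ p → ∀ f : ℕ, Nat.card (𝓞 F ⧸ v.asIdeal) = p ^ f →
        σ ^ f ∈ d.GM →
        ∀ x g, hecke v φ x g = (Real.sqrt (p ^ f : ℝ) : ℂ) * d.tr0 (σ ^ f) * φ x g

end FLTAgent.LT
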