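import Fermat.Agent.LT.Defs

/-!
The statements linking the pieces A-E of the Langlands-Tunnell route, as propositions; each is
proved in the directory of its piece.
-/

set_option autoImplicit false

noncomputable section

namespace FLTAgent.LT

open NumberField IsDedekindDomain MeasureTheory
open scoped MatrixGroups UpperHalfPlane

/-- Piece A0: Artin reciprocity for a character of order dividing 4 of a totally complex
subfield of `ℚ̄`. -/
def CyclicReciprocity : Prop :=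
  ∀ (E : IntermediateField ℚ Qb) [NumberField E], NumberField.IsTotallyComplex E →
    ∀ χ : E.fixingSubgroup →* ℂˣ,
      IsOpen (χ.ker : Set E.fixingSubgroup) → (∀ σ, χ σ ^ 4 = 1) →
      ∃ (𝔣 : Ideal (𝓞 E)) (Ω : Ideal (𝓞 E) → ℂ), 𝔣 ≠ ⊥ ∧ Ω ⊤ = 1 ∧
        (∀ I J, I ⊔ 𝔣 = ⊤ → J ⊔ 𝔣 = ⊤ → Ω (I * J) = Ω I * Ω J) ∧
        (∀ α : 𝓞 E, α ≠ 0 → α - 1 ∈ 𝔣 → Ω (Ideal.span {α}) = 1) ∧
        ∀ (p : ℕ), p.Prime → ∀ A : ValuationSubring Qb, A.LiesOverPrime p →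
          ∀ v : HeightOneSpectrum (𝓞 E),
            (∀ x : 𝓞 E, x ∈ v.asIdeal ↔ ((x : E) : Qb) ∈ A.nonunits) →
            ((∀ (σ : Gam) (hσ : σ ∈ E.fixingSubgroup), σ ∈ A.inertiaSubgroupIn ℚ →
                χ ⟨σ, hσ⟩ = 1) → ¬ 𝔣 ≤ v.asIdeal) ∧
            (¬ 𝔣 ≤ v.asIdeal → ∀ (σ : Gam) (hσ : σ ∈ E.fixingSubgroup),
              A.IsFrobeniusAt σ (Nat.card (𝓞 E ⧸ v.asIdeal)) →
              Ω v.asIdeal = (χ ⟨σ, hσ⟩ : ℂ))

/-- Pieces A1-A2: the dihedral theta function on `PGL₂` over `M`. -/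
def ThetaM (d : Octa) : Prop :=
  ∃ (N : ℕ) (φ : Form d.Mf),
    d.Good N ∧ φ ≠ 0 ∧ CuspZero N φ ∧ FullEigen N φ ∧ EigenRho d d.Mf N φ

/-- Piece B: the descent to `K = ℚ(√-3)`. -/
def CubicDescent (d : Octa) : Prop :=
  ∃ (N : ℕ) (ψ : Form d.Kf),
    d.Good N ∧ ψ ≠ 0 ∧ CuspZero N ψ ∧ FullEigen N ψ ∧ EigenRho d d.Kf N ψ

/-- The restriction of a translate of `ψ` to the upper half plane. -/
def planeRes {F : Type*} [Field F] [NumberField F] (ψ : Form F) (g : GF F) (τ : ℍ) : ℂ :=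
  ψ (fun _ => planeEmb τ) g

/-- The period of a `Γ(m)`-invariant function on the upper half plane. -/
def period (m : ℕ) (u : ℍ → ℂ) : ℂ :=
  ∑ᶠ c : SL(2, ℤ) ⧸ CongruenceSubgroup.Gamma m,
    ∫ τ in ModularGroup.fd, u ((Quotient.out c : SL(2, ℤ)) • τ)

/-- Piece C: the Asai pole gives a nonzero period. -/
def AsaiPeriod (d : Octa) : Prop :=
  ∀ (N : ℕ) (ψ : Form d.Kf), d.Good N → ψ ≠ 0 → CuspZero N ψ → FullEigen N ψ →
    EigenRho d d.Kf N ψ →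
    ∃ (g : GF d.Kf) (m : ℕ), 0 < m ∧
      (∀ γ ∈ CongruenceSubgroup.Gamma m, ∀ τ : ℍ, planeRes ψ g (γ • τ) = planeRes ψ g τ) ∧
      period m (planeRes ψ g) ≠ 0

/-- Piece D: the theta lift to weight one. -/
def ThetaLift (d : Octa) : Prop :=
  ∀ (N : ℕ) (ψ : Form d.Kf), d.Good N → CuspZero N ψ → FullEigen N ψ → EigenRho d d.Kf N ψ →
    ∀ (g : GF d.Kf) (m : ℕ), 0 < m →
      (∀ γ ∈ CongruenceSubgroup.Gamma m, ∀ τ : ℍ, planeRes ψ g (γ • τ) = planeRes ψ g τ) →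
      period m (planeRes ψ g) ≠ 0 →
    ∃ (L : ℕ) (_ : NeZero L) (ε ω : DirichletCharacter ℂ L)
      (f : CuspForm (CongruenceSubgroup.Gamma1 L) 1),
      d.Good L ∧ ModularFormClass.qCoeff f 1 = 1 ∧
      (∀ p : ℕ, p.Prime → ¬ p ∣ L → ∀ n : ℕ,
        ModularFormClass.qCoeff f (p * n) +
            ε (p : ZMod L) * (if p ∣ n then ModularFormClass.qCoeff f (n / p) else 0) =
          ModularFormClass.qCoeff f p * ModularFormClass.qCoeff f n) ∧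
      ∀ p : ℕ, p.Prime → ¬ p ∣ L → ∀ A : ValuationSubring Qb, A.LiesOverPrime p →
        ∀ σ : Gam, A.IsFrobeniusAt σ p → σ ∈ d.GM →
          ModularFormClass.qCoeff f p ^ 2 = ω (p : ZMod L) * d.tr0 σ ^ 2

/-- The conclusion at weight one, with the level under control. -/
def LTConclusion (d : Octa) : Prop :=
  ∃ (N : ℕ) (_ : NeZero N) (b : ℕ → ℤ√(-2)) (f : CuspForm (CongruenceSubgroup.Gamma1 N) 1),
    d.Good N ∧
    FormalHecke.IsEigensystem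
      (fun ℓ => if ℓ ∣ N then 0 else ((EisensteinWeightOne.chiNegThree ℓ : ℤ) : ℤ√(-2))) b ∧
    (∀ n : ℕ, ModularFormClass.qCoeff f n = iotaC (b n)) ∧
    ∀ p : ℕ, p.Prime → ¬ p ∣ 3 * N →
      ∀ A : ValuationSubring Qb, A.LiesOverPrime p →
        ∀ σ : Gam, A.IsFrobeniusAt σ p →
          b p = ((d.lift (d.rbar σ) : GL (Fin 2) (ℤ√(-2))) :
            Matrix (Fin 2) (Fin 2) (ℤ√(-2))).trace

/-- Piece E: from a weight one eigenform to the representation. -/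
def AdjointMatch (d : Octa) : Prop :=
  ∀ (L : ℕ) (_ : NeZero L) (ε ω : DirichletCharacter ℂ L)
    (f : CuspForm (CongruenceSubgroup.Gamma1 L) 1),
    d.Good L → ModularFormClass.qCoeff f 1 = 1 →
    (∀ p : ℕ, p.Prime → ¬ p ∣ L → ∀ n : ℕ,
      ModularFormClass.qCoeff f (p * n) +
          ε (p : ZMod L) * (if p ∣ n then ModularFormClass.qCoeff f (n / p) else 0) =
        ModularFormClass.qCoeff f p * ModularFormClass.qCoeff f n) →
    (∀ p : ℕ, p.Prime → ¬ p ∣ L → ∀ A : ValuationSubring Qb, A.LiesOverPrime p →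
      ∀ σ : Gam, A.IsFrobeniusAt σ p → σ ∈ d.GM →
        ModularFormClass.qCoeff f p ^ 2 = ω (p : ZMod L) * d.tr0 σ ^ 2) →
    LTConclusion d

/-- The route. -/
theorem lt_conclusion {d : Octa} (hB : CubicDescent d) (hC : AsaiPeriod d) (hD : ThetaLift d)
    (hE : AdjointMatch d) : LTConclusion d := by
  obtain ⟨N, ψ, hN, hne, hcz, hfe, her⟩ := hB
  obtain ⟨g, m, hm, hinv, hper⟩ := hC N ψ hN hne hcz hfe her
  obtain ⟨L, hL, ε, ω, f, h1, h2, h3, h4⟩ := hD N ψ hN hcz hfe her g m hm hinv hper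
  exact hE L hL ε ω f h1 h2 h3 h4

end FLTAgent.LT
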