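import Fermat.Agent.LT.Adjoint.Dirichlet
import Fermat.Agent.LT.Octahedral.ExplicitHom
import Fermat.Agent.LT.Octahedral.Group
import Fermat.Agent.RT.Irr.Main
import Fermat.Agent.LevelDrop.Residual

/-!
# The octahedral datum of a semistable curve with irreducible `E[3]`
-/

set_option autoImplicit false
set_option linter.style.haveILetI false
set_option linter.unusedSectionVars false

noncomputable section

namespace FLTAgent.LT

open WeierstrassCurve FLTAgent.RTIrr FLTAgent.LevelDrop FLTAgent.TW.Local Matrix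
open scoped WeierstrassCurve.Affine Pointwise

variable {W : WeierstrassCurve ℤ} (hΔ : W.Δ ≠ 0)

instance fact_prime_three : Fact (Nat.Prime 3) := ⟨Nat.prime_three⟩

/-- The mod three representation in a basis, with values in the units. -/
def rbarThree : Gam →* G3 := (torsMat hΔ 3).toHomUnits

theorem val_rbarThree (σ : Gam) :
    (rbarThree hΔ σ : Matrix (Fin 2) (Fin 2) (ZMod 3)) = torsMat hΔ 3 σ := rfl

theorem rbarThree_finLevel : ∃ L : IntermediateField ℚ Qb, FiniteDimensional ℚ L ∧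
    ∀ σ : Gam, (∀ x ∈ L, σ x = x) → rbarThree hΔ σ = 1 := by
  obtain ⟨L, hL, hfix⟩ := (torsRep hΔ 3).factorsThroughFiniteLevel
  exact ⟨L, hL, fun σ hσ => Units.ext (by
    rw [val_rbarThree, torsMat_eq, hfix σ hσ, LinearMap.toMatrix_one, Units.val_one])⟩

theorem continuous_rbarThree : Continuous (rbarThree hΔ) := by
  obtain ⟨L, hL, hfix⟩ := rbarThree_finLevel hΔ
  have hopen : IsOpen ((rbarThree hΔ).ker : Set Gam) :=
    Subgroup.isOpen_mono
      (fun σ hσ => hfix σ ((IntermediateField.mem_fixingSubgroup_iff L σ).1 hσ))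
      L.fixingSubgroup_isOpen
  refine continuous_def.2 fun s _ => isOpen_iff_forall_mem_open.2 fun σ hσ => ?_
  refine ⟨(fun τ => σ⁻¹ * τ) ⁻¹' ((rbarThree hΔ).ker : Set Gam), fun τ hτ => ?_,
    hopen.preimage (continuous_const_mul _), by simp⟩
  rw [Set.mem_preimage, SetLike.mem_coe, MonoidHom.mem_ker, map_mul, map_inv, inv_mul_eq_one] at hτ
  rw [Set.mem_preimage, ← hτ]
  exact hσ

theorem det_rbarThree (σ : Gam) :
    Matrix.GeneralLinearGroup.det (rbarThree hΔ σ) = modThreeCyclotomicChar σ := by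
  refine Units.ext ?_
  show (torsMat hΔ 3 σ).det = _
  rw [det_torsMat_of_pow hΔ 3 σ ((cycMod 3 σ : ZMod 3)).val fun μ hμ => cycMod_spec σ hμ,
    ZMod.natCast_zmod_val]
  rfl

theorem stableLine_of_commute {K : Type} [Field K] [IsAlgClosed K] (φ : ZMod 3 →+* K)
    (S : Set Gam) (hS : ∀ g ∈ S, ∀ h ∈ S, torsMat hΔ 3 g * torsMat hΔ 3 h =
      torsMat hΔ 3 h * torsMat hΔ 3 g) :
    HasStableLine (Deformation.mapRep φ (torsMat hΔ 3)) S := by
  set r := torsMat hΔ 3
  by_cases hscal : ∀ g ∈ S, ∃ a : K, (r g).map φ = a • (1 : Matrix (Fin 2) (Fin 2) K)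
  · exact ⟨Pi.single 0 1, by simp, fun g hg => by
      obtain ⟨a, ha⟩ := hscal g hg
      exact ⟨a, by rw [Deformation.mapRep_apply, ha, Matrix.smul_mulVec, Matrix.one_mulVec]⟩⟩
  push Not at hscal
  obtain ⟨g, hgS, hg⟩ := hscal
  set M := (r g).map φ with hM
  obtain ⟨a, ha⟩ := IsAlgClosed.exists_root M.charpoly (by
    rw [Matrix.charpoly_degree_eq_dim]; simp)
  have hdet : (M - a • (1 : Matrix (Fin 2) (Fin 2) K)).det = 0 := by
    rw [Polynomial.IsRoot, Matrix.eval_charpoly] at ha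
    rw [show M - a • (1 : Matrix (Fin 2) (Fin 2) K) = -(Matrix.scalar (Fin 2) a - M) by
      rw [neg_sub, Matrix.smul_one_eq_diagonal]; rfl, Matrix.det_neg, ha, mul_zero]
  obtain ⟨v, hv, hv0⟩ := Matrix.exists_mulVec_eq_zero_iff.mpr hdet
  refine ⟨v, hv, fun h hh => ?_⟩
  refine exists_smul_of_mulVec_eq_zero (N := M - a • (1 : Matrix (Fin 2) (Fin 2) K))
    (fun h0 => hg a (sub_eq_zero.mp h0)) ?_ hv0 hv
  have hco : (M - a • (1 : Matrix (Fin 2) (Fin 2) K)) * (Deformation.mapRep φ r h) =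
      (Deformation.mapRep φ r h) * (M - a • (1 : Matrix (Fin 2) (Fin 2) K)) := by
    rw [sub_mul, mul_sub, Matrix.smul_mul, one_mul, Matrix.mul_smul, mul_one, hM,
      Deformation.mapRep_apply, ← Matrix.map_mul, hS g hgS h hh, Matrix.map_mul]
  rw [Matrix.mulVec_mulVec, hco, ← Matrix.mulVec_mulVec, hv0, Matrix.mulVec_zero]

variable (hsemi : W.IsSemistableModel) (hirr : W.ModRepIsIrreducible 3)
include hsemi hirr

theorem exists_order_three : ∃ σ : Gam, rbarThree hΔ σ ≠ 1 ∧ rbarThree hΔ σ ^ 3 = 1 := by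
  by_contra hc
  push Not at hc
  set H := (rbarThree hΔ).range
  have h3 : ¬ 3 ∣ Nat.card H := fun h => by
    obtain ⟨x, hx⟩ := exists_prime_orderOf_dvd_card' 3 h
    obtain ⟨σ, hσ⟩ := x.2
    have hx3 : x ^ 3 = 1 := orderOf_dvd_iff_pow_eq_one.1 hx.dvd
    have h1 : rbarThree hΔ σ ≠ 1 := fun h' => by
      have : x = 1 := Subtype.ext (hσ.symm.trans h')
      rw [this, orderOf_one] at hx
      omega
    exact hc σ h1 (by rw [hσ, ← SubgroupClass.coe_pow, hx3]; rfl)
  obtain ⟨C, hC, hidx⟩ := exists_abelian_part H h3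
  let K := AlgebraicClosure (ZMod 3)
  let φ : ZMod 3 →+* K := algebraMap _ K
  have hcomm : ∀ g h : Gam, rbarThree hΔ g ∈ C → rbarThree hΔ h ∈ C →
      torsMat hΔ 3 g * torsMat hΔ 3 h = torsMat hΔ 3 h * torsMat hΔ 3 g := fun g h hg hh => by
    simpa [val_rbarThree] using congrArg Units.val (hC _ hg _ hh)
  by_cases hall : ∀ σ, rbarThree hΔ σ ∈ C
  · exact not_hasStableLine_map hΔ 3 φ (by norm_num) hirr
      (stableLine_of_commute hΔ φ _ fun g _ h _ => hcomm g h (hall g) (hall h))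
  push Not at hall
  obtain ⟨s, hs⟩ := hall
  let G := C.comap (rbarThree hΔ)
  have hG : G.index = 2 := by
    refine Subgroup.index_eq_two_iff.mpr ⟨s, fun σ => ?_⟩
    simp only [G, Subgroup.mem_comap, map_mul]
    by_cases hσ : rbarThree hΔ σ ∈ C
    · exact Or.inr ⟨hσ, fun h => hs (by simpa using C.mul_mem (C.inv_mem hσ) h)⟩
    · exact Or.inl ⟨(hidx _ ⟨σ, rfl⟩ _ ⟨s, rfl⟩ hσ).2 hs, hσ⟩
  exact not_hasStableLine_index_two hΔ 3 φ hsemi (by norm_num) hirr G hG
    (stableLine_of_commute hΔ φ _ fun g hg h hh => hcomm g h hg hh)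

theorem surjective_rbarThree : Function.Surjective (rbarThree hΔ) := by
  obtain ⟨a, ha1, ha3⟩ := exists_order_three hΔ hsemi hirr
  set u : Matrix (Fin 2) (Fin 2) (ZMod 3) := torsMat hΔ 3 a
  have hu3 : u ^ 3 = 1 := by
    have := congrArg Units.val ha3
    simpa [val_rbarThree] using this
  have hu1 : u ≠ 1 := fun h => ha1 (Units.ext h)
  have hpow : (u - 1) ^ 3 = 0 := by
    have : CharP (Matrix (Fin 2) (Fin 2) (ZMod 3)) 3 := inferInstance
    rw [sub_pow_char_of_commute (p := 3) (Commute.one_right u), hu3, one_pow, sub_self]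
  have hdet0 : (u - 1).det = 0 := by
    have := congrArg Matrix.det hpow
    rw [Matrix.det_pow, Matrix.det_zero] at this
    exact pow_eq_zero_iff (n := 3) (by norm_num) |>.1 this
  have hdetu : u.det = 1 := by
    have := congrArg Matrix.det hu3
    rw [Matrix.det_pow, Matrix.det_one] at this
    revert this
    generalize u.det = z
    revert z
    decide
  obtain ⟨v, hv, hv0⟩ := Matrix.exists_mulVec_eq_zero_iff.mpr hdet0
  rw [Matrix.sub_mulVec, Matrix.one_mulVec, sub_eq_zero] at hv0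
  obtain ⟨g, hg⟩ : ∃ g, ∀ t : ZMod 3, torsMat hΔ 3 g *ᵥ v ≠ t • v := by
    by_contra hc
    push Not at hc
    exact not_hasStableLine_torsMat hΔ 3 hirr ⟨v, hv, fun g _ => hc g⟩
  set w := torsMat hΔ 3 g *ᵥ v with hw
  set P : Matrix (Fin 2) (Fin 2) (ZMod 3) := !![v 0, w 0; v 1, w 1] with hP
  have hPdet : P.det ≠ 0 := by
    intro h
    obtain ⟨c, hc, hPc⟩ := Matrix.exists_mulVec_eq_zero_iff.mpr h
    have hlin : c 0 • v + c 1 • w = 0 := by
      ext i
      have := congrFun hPc i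
      fin_cases i <;> simp [hP, mulVec, dotProduct, Fin.sum_univ_two] at this ⊢ <;>
        linear_combination this
    rcases eq_or_ne (c 1) 0 with h1 | h1
    · rw [h1, zero_smul, add_zero, smul_eq_zero] at hlin
      rcases hlin with h0 | h0
      · exact hc (funext fun i => by fin_cases i <;> simp [h0, h1])
      · exact hv h0
    · refine hg (-(c 1)⁻¹ * c 0) ?_
      have := congrArg ((c 1)⁻¹ • ·) hlin
      simp only [smul_add, smul_smul, smul_zero, inv_mul_cancel₀ h1, one_smul] at this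
      rw [neg_mul, neg_smul, eq_neg_iff_add_eq_zero, add_comm, this]
  set Pu := Matrix.GeneralLinearGroup.mkOfDetNeZero P hPdet
  set R : Gam →* G3 := (MulAut.conj Pu⁻¹).toMonoidHom.comp (rbarThree hΔ)
  suffices hR : Function.Surjective R by
    intro x
    obtain ⟨σ, hσ⟩ := hR (MulAut.conj Pu⁻¹ x)
    exact ⟨σ, (MulAut.conj Pu⁻¹).injective hσ⟩
  rw [← MonoidHom.range_eq_top]
  have key : ∀ (M : Matrix (Fin 2) (Fin 2) (ZMod 3)) (σ : Gam), torsMat hΔ 3 σ = M →
      P * (R σ : Matrix (Fin 2) (Fin 2) (ZMod 3)) = M * P := by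
    intro M σ hσ
    have : Pu * R σ = rbarThree hΔ σ * Pu := by
      show Pu * (Pu⁻¹ * rbarThree hΔ σ * (Pu⁻¹)⁻¹) = _
      rw [inv_inv, mul_assoc Pu⁻¹, mul_inv_cancel_left]
    have h := congrArg Units.val this
    rw [Units.val_mul, Units.val_mul, val_rbarThree, hσ] at h
    exact h
  have hdetR : ∀ σ, (R σ : Matrix (Fin 2) (Fin 2) (ZMod 3)).det = (torsMat hΔ 3 σ).det := fun σ => by
    have := congrArg Matrix.det (key _ σ rfl)
    rw [Matrix.det_mul, Matrix.det_mul, mul_comm] at this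
    exact mul_right_cancel₀ hPdet this
  -- the upper unipotent
  have hup : ∃ x : ZMod 3, x ≠ 0 ∧
      (R a : Matrix (Fin 2) (Fin 2) (ZMod 3)) = !![1, x; 0, 1] := by
    set M := (R a : Matrix (Fin 2) (Fin 2) (ZMod 3)) with hM
    have hcol : M *ᵥ ![1, 0] = ![1, 0] := by
      have h1 : P *ᵥ (M *ᵥ ![1, 0]) = P *ᵥ ![1, 0] := by
        have hPv : P *ᵥ ![1, 0] = v := by
          ext i; fin_cases i <;> simp [hP, mulVec, dotProduct, Fin.sum_univ_two]
        rw [Matrix.mulVec_mulVec, hM, key u a rfl, ← Matrix.mulVec_mulVec, hPv, hv0]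
      exact Matrix.mulVec_injective_iff_isUnit.2
        ((Matrix.isUnit_iff_isUnit_det P).2 (isUnit_iff_ne_zero.2 hPdet)) h1
    have e0 := congrFun hcol 0
    have e1 := congrFun hcol 1
    simp [mulVec, dotProduct, Fin.sum_univ_two] at e0 e1
    have e2 : M 1 1 = 1 := by
      have h := hdetR a
      rw [← hM, Matrix.det_fin_two, e0, e1, hdetu] at h
      simpa using h
    have hM' : M = !![1, M 0 1; 0, 1] := by
      rw [Matrix.eta_fin_two M, e0, e1, e2]; simp
    refine ⟨M 0 1, fun h => hu1 ?_, hM'⟩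
    have hk := key u a rfl
    rw [← hM, hM', h, ← Matrix.one_fin_two, mul_one] at hk
    have h2 := congrArg (· * P⁻¹) hk
    simp only [Matrix.mul_nonsing_inv _ (isUnit_iff_ne_zero.2 hPdet), mul_assoc, mul_one] at h2
    exact h2.symm
  -- the lower unipotent
  have hlow : ∃ y : ZMod 3, y ≠ 0 ∧
      (R (g * a * g⁻¹) : Matrix (Fin 2) (Fin 2) (ZMod 3)) = !![1, 0; y, 1] := by
    set M := (R (g * a * g⁻¹) : Matrix (Fin 2) (Fin 2) (ZMod 3)) with hM
    have hcol : M *ᵥ ![0, 1] = ![0, 1] := by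
      have h1 : P *ᵥ (M *ᵥ ![0, 1]) = P *ᵥ ![0, 1] := by
        have hPw : P *ᵥ ![0, 1] = w := by
          ext i; fin_cases i <;> simp [hP, mulVec, dotProduct, Fin.sum_univ_two]
        rw [Matrix.mulVec_mulVec, hM, key _ (g * a * g⁻¹) rfl, ← Matrix.mulVec_mulVec, hPw, hw,
          Matrix.mulVec_mulVec, ← map_mul, inv_mul_cancel_right, map_mul, ← Matrix.mulVec_mulVec,
          hv0]
      exact Matrix.mulVec_injective_iff_isUnit.2
        ((Matrix.isUnit_iff_isUnit_det P).2 (isUnit_iff_ne_zero.2 hPdet)) h1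
    have e0 := congrFun hcol 0
    have e1 := congrFun hcol 1
    simp [mulVec, dotProduct, Fin.sum_univ_two] at e0 e1
    have e2 : M 0 0 = 1 := by
      have h := hdetR (g * a * g⁻¹)
      have hd : (torsMat hΔ 3 (g * a * g⁻¹)).det = 1 := by
        rw [map_mul, map_mul, det_mul, det_mul, mul_right_comm, ← det_mul, ← map_mul,
          mul_inv_cancel, map_one, det_one, one_mul]
        exact hdetu
      rw [← hM, Matrix.det_fin_two, e0, e1, hd] at h
      simpa using h
    have hM' : M = !![1, 0; M 1 0, 1] := by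
      rw [Matrix.eta_fin_two M, e0, e1, e2]; simp
    refine ⟨M 1 0, fun h => ?_, hM'⟩
    have h1 : R (g * a * g⁻¹) = 1 := Units.ext (by
      rw [← hM, hM', h, Units.val_one, Matrix.one_fin_two])
    rw [map_mul, map_mul, map_inv, mul_inv_eq_one, mul_eq_left] at h1
    exact ha1 ((MulAut.conj Pu⁻¹).injective (h1.trans (map_one _).symm))
  obtain ⟨x, hx, hx'⟩ := hup
  obtain ⟨y, hy, hy'⟩ := hlow
  refine eq_top_of_unipotents _ ⟨R complexConjugation, ⟨_, rfl⟩, ?_⟩ ⟨a, rfl⟩ ⟨_, rfl⟩ hx hy hx' hy'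
  show (R complexConjugation : Matrix (Fin 2) (Fin 2) (ZMod 3)).det = -1
  rw [hdetR]
  exact (torsMat_conj_props hΔ 3 (by norm_num)).2.1

/-- The octahedral datum of a semistable curve with irreducible `E[3]`. -/
def octaOfCurve : Octa where
  rbar := rbarThree hΔ
  cont := continuous_rbarThree hΔ
  surj := surjective_rbarThree hΔ hsemi hirr
  det_eq := det_rbarThree hΔ
  lift := explicitLift
  lift_red := explicitLift_red

theorem octaOfCurve_rbar (σ : Gam) :
    ((octaOfCurve hΔ hsemi hirr).rbar σ : Matrix (Fin 2) (Fin 2) (ZMod 3)) = torsMat hΔ 3 σ := rfl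

/-- The traces of the datum at Frobenius elements. -/
theorem octaOfCurve_trace (ℓ : ℕ) (hℓ : ℓ.Prime) (hgood : W.IsGoodPrimeFor ℓ) (hℓ3 : ℓ ≠ 3)
    (A : ValuationSubring Qb) (hA : A.LiesOverPrime ℓ) (σ : Gam) (hσ : A.IsFrobeniusAt σ ℓ) :
    (((octaOfCurve hΔ hsemi hirr).rbar σ : GL (Fin 2) (ZMod 3)) :
      Matrix (Fin 2) (Fin 2) (ZMod 3)).trace = (W.apOfModel ℓ : ZMod 3) := by
  have hcp := charpoly_torsRep_frobenius hΔ 3 hℓ hgood hℓ3 A hA σ hσ
  rw [← LinearMap.charpoly_toMatrix _ (torsBasis hΔ 3), ← torsMat_eq] at hcp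
  rw [octaOfCurve_rbar, Matrix.trace_eq_neg_charpoly_coeff, hcp, Fintype.card_fin]
  simp [Polynomial.coeff_X_pow]

end FLTAgent.LT
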