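import Fermat.Agent.LT.Adjoint.Dirichlet
import Fermat.Agent.LT.Octahedral.Group

/-!
# The representation at three

If the decomposition group over `ℚ(√-3)` at a place over `3` leaves the quaternion part, inertia
in the quaternion part acts trivially: only the determinant and tame inertia are used.
-/

set_option autoImplicit false
set_option linter.style.haveILetI false

noncomputable section

namespace FLTAgent.LT

open FLTAgent.TW.Local FLTAgent.Deformation
open scoped Pointwise

theorem fact_three_prime : Fact (Nat.Prime 3) := ⟨Nat.prime_three⟩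

attribute [local instance] fact_three_prime

/-- The kernel of the representation contains the group of a finite extension. -/
theorem Octa.rbar_finLevel (d : Octa) : ∃ L : IntermediateField ℚ Qb, FiniteDimensional ℚ L ∧
    ∀ σ : Gam, (∀ x ∈ L, σ x = x) → d.rbar σ = 1 := by
  obtain ⟨hfix, hfd⟩ := Octa.fixing_of_open (show IsOpen (d.rbar.ker : Set Gam) from
    d.isOpen_comap ⊥)
  exact ⟨_, hfd, fun σ hσ => MonoidHom.mem_ker.1
    (hfix ▸ (IntermediateField.mem_fixingSubgroup_iff _ σ).2 hσ)⟩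

/-- At `3`, a decomposition group over `ℚ(√-3)` outside the quaternion part has no inertia in the
quaternion part. -/
theorem Octa.inertia_quat_three (d : Octa) {A : ValuationSubring Qb} (hA : A.LiesOverPrime 3)
    (hnd : ¬ ∀ σ ∈ A.decompositionSubgroup ℚ, σ ∈ d.GK → σ ∈ d.GM) :
    ∀ σ ∈ A.inertiaSubgroupIn ℚ, σ ∈ d.GM → d.rbar σ = 1 := by
  have hp : Nat.Prime 3 := Nat.prime_three
  push Not at hnd
  obtain ⟨g, hg, hgK, hgM⟩ := hnd
  have hdet : Matrix.GeneralLinearGroup.det (d.rbar g) = 1 := hgK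
  have hgq : d.rbar g ∉ Octa.quat := hgM
  intro s hs hsq
  obtain ⟨k, hk⟩ := exists_upSign_q8_of_mem_quat hsq
  have hlev := d.rbar_finLevel
  obtain ⟨L, hL, hnorm, hfix⟩ := exists_normal_level hlev
  obtain ⟨T⟩ := TameLevel.nonempty (L := L) hp hA
  have hwild : ∀ w, T.IsWild w → d.rbar w ^ 3 = 1 := by
    intro w hw
    obtain ⟨-, a, ha⟩ := TameLevel.IsWild.eq_one (T := T)
      (rb := (1 : Gam →* Deformation.Mat ℚ)) hp hA hw (fun _ _ => rfl) (m := 1)
      (fun h => hp.ne_one (Nat.dvd_one.mp h)) (by simp)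
    have h1 : d.rbar w ^ 3 ^ a = 1 := by rw [← map_pow, hfix _ ha]
    have h2 : d.rbar w ^ (16 * 3) = 1 := by
      have hcard : Nat.card G3 = 16 * 3 := by
        rw [Matrix.card_GL_field]; simp [Fin.prod_univ_two]
      rw [← hcard]; exact pow_card_eq_one'
    have h3 := pow_gcd_eq_one.mpr ⟨h1, h2⟩
    rw [Nat.Coprime.gcd_mul_left_cancel_right _ ((by norm_num : Nat.Coprime 16 3).pow_right a)] at h3
    exact orderOf_dvd_iff_pow_eq_one.1
      ((orderOf_dvd_iff_pow_eq_one.2 h3).trans (Nat.gcd_dvd_right _ _))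
  have hneg1 : ((-1 : G3) ^ 3) ≠ 1 := by decide
  have hconj : ∀ t ∈ A.inertiaSubgroupIn ℚ, g * t * g⁻¹ ∈ A.inertiaSubgroupIn ℚ := fun t ht => by
    have h := Frobenius.inertiaSubgroupIn_conj ht g
    rwa [MulAction.mem_stabilizer_iff.mp hg] at h
  have hnoq : ∀ t ∈ A.inertiaSubgroupIn ℚ, ∀ l, UpSign (d.rbar t) (q8 l) → l = 0 := by
    intro t ht l hl
    by_contra hl0
    set t' := g * t * g⁻¹
    have ht' := hconj t ht
    have hw : T.IsWild (t * t' * t⁻¹ * t'⁻¹) := by
      refine ⟨mul_mem (mul_mem (mul_mem ht ht') (inv_mem ht)) (inv_mem ht'), ?_⟩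
      set θ := (tameHom (P := A) T.ne_zero).toHomUnits
      have h1 : θ (⟨t, ht⟩ * ⟨t', ht'⟩ * (⟨t, ht⟩ : A.inertiaSubgroupIn ℚ)⁻¹ * ⟨t', ht'⟩⁻¹) = 1 := by
        rw [map_mul, map_mul, map_mul, map_inv, map_inv, mul_right_comm (θ _), mul_inv_cancel,
          one_mul, mul_inv_cancel]
      exact congrArg Units.val h1
    have h := hwild _ hw
    have he : d.rbar (t * t' * t⁻¹ * t'⁻¹) = -1 := by
      simp only [t', map_mul, map_inv]
      have hc := exists_conj_commutator _ hdet hgq hl0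
      rcases hl with e | e <;> rw [e]
      · exact hc
      · rw [← hc]; simp
    rw [he] at h
    exact hneg1 h
  obtain ⟨τ, hτ, hgen⟩ := T.exists_generator
  obtain ⟨σ₀, hσ₀, hσ₀'⟩ := exists_mem_inertia_cycMod_eq (k := 1) hp hA (-1)
  have hdetw : ∀ w, T.IsWild w → Matrix.GeneralLinearGroup.det (d.rbar w) = 1 := by
    intro w hw
    have h := congrArg Matrix.GeneralLinearGroup.det (hwild w hw)
    rw [map_pow, map_one] at h
    revert h
    generalize Matrix.GeneralLinearGroup.det (d.rbar w) = z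
    revert z; decide
  have hgen' : ∀ t ∈ A.inertiaSubgroupIn ℚ, ∃ (n : ℕ) (w : Gam), T.IsWild w ∧
      d.rbar t = d.rbar τ ^ n * d.rbar w := fun t ht => by
    obtain ⟨n, hn⟩ := hgen t ht
    exact ⟨n, _, hn, by rw [← map_pow, ← map_mul, mul_inv_cancel_left]⟩
  have hdτ : (Matrix.GeneralLinearGroup.det (d.rbar τ) : ZMod 3) = -1 := by
    obtain ⟨n, w, hw, he⟩ := hgen' σ₀ hσ₀
    have h := congrArg Matrix.GeneralLinearGroup.det he
    rw [d.det_eq, ← show cycMod 3 σ₀ = WeierstrassCurve.modThreeCyclotomicChar σ₀ from rfl,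
      map_mul, hdetw w hw, mul_one, map_pow] at h
    have h' : cycMod 3 σ₀ = -1 := hσ₀'
    rw [h'] at h
    have hcases : ∀ z : (ZMod 3)ˣ, z = 1 ∨ z = -1 := by decide
    rcases hcases (Matrix.GeneralLinearGroup.det (d.rbar τ)) with hz | hz
    · rw [hz, one_pow] at h
      exact absurd h (by decide)
    · rw [hz]; rfl
  have hsq : d.rbar τ ^ 2 = 1 := by
    refine (sq_of_det_neg _ hdτ).resolve_right ?_
    rintro ⟨l, hl, hup⟩
    rw [← map_pow] at hup
    exact hl (hnoq _ (Subgroup.pow_mem _ hτ 2) l hup)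
  obtain ⟨n, w, hw, he⟩ := hgen' s hs
  have hk0 := hnoq s hs k hk
  subst hk0
  rcases Nat.even_or_odd' n with ⟨m, rfl | rfl⟩
  · rw [pow_mul, hsq, one_pow, one_mul] at he
    have h3 := hwild w hw
    rw [← he] at h3
    rcases hk with h | h
    · exact h
    · rw [h] at h3
      exact absurd h3 (quat_cube 0).2
  · exfalso
    rw [pow_succ, pow_mul, hsq, one_pow, one_mul] at he
    have hd' := congrArg (fun g => (Matrix.GeneralLinearGroup.det g : ZMod 3)) he
    simp only [map_mul, hdetw w hw, mul_one, hdτ] at hd'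
    rcases hk with h | h <;> rw [h] at hd' <;> exact absurd hd' (by decide)

end FLTAgent.LT
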